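/-
S44lib / AnnInst / Frob  (helper1)  — Project LSq, block (N4)(i), arithmetic of the base

`A` a valuation subring of `ℚ̄` over the prime `q`, `I = A.inertiaSubgroupIn ℚ`.

* `exists_isFrobeniusAt_of_liesOver` : a Frobenius element `φ` at `A` exists;
* `div_mem_of_fixed`     : an inertia-fixed element of `𝔪_A` is divisible by `q` in `A`
                           (the inertia field is unramified, `S36lib/Desc/Base`);
* `frob_conj_fixed`      : `φ b`, `φ⁻¹ b` are inertia-fixed if `b` is;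
* `frob_sub_pow_div_mem` : **the Frobenius congruence mod `q`**: for `b ∈ A` inertia-fixed,
                           `(φ b - b ^ q) / q ∈ A`;
* `sub_frob_inv_pow_div_mem` : `(a - (φ⁻¹ a) ^ q) / q ∈ A` for `a ∈ A` inertia-fixed.
-/
import Fermat.Agent.S56lib.TWSel.Places
import Fermat.Agent.Helper5.FrobExists
import Fermat.Agent.S36lib.Desc.Base

set_option autoImplicit false
set_option linter.unusedSectionVars false

noncomputable section

namespace Fermat.Agent.S44lib.AnnInst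

open Fermat.Agent.Helper5 Fermat.Agent.S56lib.TWSel
open scoped Pointwise

variable {A : ValuationSubring Qbar} {q : ℕ}

/-- a Frobenius element at a given place of `ℚ̄` over `q` -/
theorem exists_isFrobeniusAt_of_liesOver (hq : q.Prime) (hA : A.LiesOverPrime q) :
    ∃ φ : GQ, A.IsFrobeniusAt φ q := by
  obtain ⟨P, σ, hP, hσ⟩ := Fermat.Agent.Helper5.exists_isFrobeniusAt q hq
  obtain ⟨g, hg⟩ := exists_smul_eq_of_liesOverPrime hq hP hA
  refine ⟨g * σ * g⁻¹, ?_⟩
  rw [hg]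
  exact isFrobeniusAt_conj hσ

/-- an inertia-fixed non-unit of `A` is divisible by `q` -/
theorem div_mem_of_fixed (hq : q.Prime) (hA : A.LiesOverPrime q) {c : Qbar}
    (hc : c ∈ A.nonunits) (hfix : ∀ τ ∈ A.inertiaSubgroupIn ℚ, τ c = c) :
    c / (q : Qbar) ∈ A := by
  rcases eq_or_ne c 0 with rfl | hc0
  · rw [zero_div]; exact A.zero_mem
  obtain ⟨m, hm⟩ := Fermat.Agent.S36lib.Desc.exists_zpow_mul_unit A hq hA hc0 hfix
  have hy : A.valuation c < 1 := (ValuationSubring.mem_nonunits_iff A).1 hc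
  have hx1 : A.valuation (q : Qbar) < 1 := (ValuationSubring.mem_nonunits_iff A).1 hA
  have hq0 : (q : Qbar) ≠ 0 := by exact_mod_cast hq.ne_zero
  have hx0 : A.valuation (q : Qbar) ≠ 0 := (Valuation.ne_zero_iff _).2 hq0
  rw [map_mul, map_zpow₀] at hm
  -- `m ≤ -1`
  have hm1 : m ≤ -1 := by
    by_contra hcon
    have hm0 : 0 ≤ m := by omega
    obtain ⟨k, rfl⟩ := Int.eq_ofNat_of_zero_le hm0
    rw [zpow_natCast] at hm
    have h1 : A.valuation (q : Qbar) ^ k ≤ 1 := pow_le_one₀ zero_le hx1.le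
    have h2 : A.valuation c * A.valuation (q : Qbar) ^ k ≤ A.valuation c :=
      mul_le_of_le_one_right' h1
    rw [hm] at h2
    exact absurd (lt_of_le_of_lt h2 hy) (lt_irrefl _)
  obtain ⟨k, hk⟩ : ∃ k : ℕ, m = -((k : ℤ) + 1) := ⟨(-m - 1).toNat, by omega⟩
  rw [← ValuationSubring.valuation_le_one_iff, map_div₀]
  have hy' : A.valuation c = A.valuation (q : Qbar) ^ (k + 1) := by
    rw [hk, zpow_neg] at hm
    have h3 : A.valuation (q : Qbar) ^ ((k : ℤ) + 1) ≠ 0 := zpow_ne_zero _ hx0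
    rw [(mul_inv_eq_one₀ h3).1 hm]
    exact_mod_cast rfl
  rw [hy', pow_succ, mul_div_assoc, div_self hx0, mul_one]
  exact pow_le_one₀ zero_le hx1.le

/-- conjugating the inertia group by an element of the decomposition group -/
theorem conj_mem_inertia_of_decomp {σ τ : GQ} (hσ : σ ∈ A.decompositionSubgroup ℚ)
    (hτ : τ ∈ A.inertiaSubgroupIn ℚ) : σ * τ * σ⁻¹ ∈ A.inertiaSubgroupIn ℚ := by
  have := conj_mem_inertia (A := A) (g := σ) hτ
  rwa [mem_decomp_iff.1 hσ] at this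

/-- the image of an inertia-fixed element under an element of the decomposition group is
inertia-fixed -/
theorem fixed_apply_of_decomp {σ : GQ} (hσ : σ ∈ A.decompositionSubgroup ℚ) {b : Qbar}
    (hfix : ∀ τ ∈ A.inertiaSubgroupIn ℚ, τ b = b) :
    ∀ τ ∈ A.inertiaSubgroupIn ℚ, τ (σ b) = σ b := by
  intro τ hτ
  have h1 : σ⁻¹ * τ * σ ∈ A.inertiaSubgroupIn ℚ := by
    have := conj_mem_inertia_of_decomp (inv_mem_decomp hσ) hτ
    rwa [inv_inv] at this
  have h2 := hfix _ h1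
  rw [AlgEquiv.mul_apply, AlgEquiv.mul_apply] at h2
  have h3 := congrArg σ h2
  rwa [apply_inv_apply] at h3

/-- **the Frobenius congruence modulo `q`** on the inertia-fixed elements of `A` -/
theorem frob_sub_pow_div_mem (hq : q.Prime) (hA : A.LiesOverPrime q) {φ : GQ}
    (hφ : A.IsFrobeniusAt φ q) {b : Qbar} (hb : b ∈ A)
    (hfix : ∀ τ ∈ A.inertiaSubgroupIn ℚ, τ b = b) : (φ b - b ^ q) / (q : Qbar) ∈ A := by
  obtain ⟨hD, hF⟩ := isFrobeniusAt_iff.1 hφ
  refine div_mem_of_fixed hq hA (hF b hb) fun τ hτ => ?_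
  rw [map_sub, map_pow, fixed_apply_of_decomp hD hfix τ hτ, hfix τ hτ]

/-- the same for `φ⁻¹`: `a ≡ (φ⁻¹ a) ^ q` modulo `q A` -/
theorem sub_frob_inv_pow_div_mem (hq : q.Prime) (hA : A.LiesOverPrime q) {φ : GQ}
    (hφ : A.IsFrobeniusAt φ q) {a : Qbar} (ha : a ∈ A)
    (hfix : ∀ τ ∈ A.inertiaSubgroupIn ℚ, τ a = a) :
    (a - (φ⁻¹ a) ^ q) / (q : Qbar) ∈ A := by
  obtain ⟨hD, hF⟩ := isFrobeniusAt_iff.1 hφ
  have hb : φ⁻¹ a ∈ A := apply_mem_of_mem_decomp (inv_mem_decomp hD) ha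
  have := frob_sub_pow_div_mem hq hA hφ hb (fixed_apply_of_decomp (inv_mem_decomp hD) hfix)
  rwa [apply_inv_apply] at this

end Fermat.Agent.S44lib.AnnInst
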