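/-
S44lib / AnnInst / Node  (helper1)  — Project LSq, block (N1)

The points of the generic fibre which reduce to a NODE, for helper6's construction context
`NRed.NCtx D Y Y₁ Y₂ g g₁ g₂` (frame divisor `Y`, reduction onto the nodal spaces).

* `LevelOK n`            : `n` is in the range where the trichotomy `NRed.exists_red_single` applies;
* `ec_of_nodeRedAt` (EC) : if `P` reduces to the node `c` at level `n`, then every `u ∈ L(nY) ∩ O` is
                           regular at `P`, `u(P) ∈ A`, and `res (u(P))` is the common value of the two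
                           reductions of `u` at the node points `x₁ c`, `x₂ c`;
* `exists_delta`         : the lift `ψ ∈ L(nY) ∩ O` of the nodal function `δ_c` (`1` at the node `c`,
                           `0` at the other nodes);
* `nodeRedAt_unique`, `nodeRedAt_of_le` : the node is unique and does not depend on the level;
* `annOf`                : the annulus (= node) of a place, `annOf_eq_none_iff : annOf P = none ↔ rOf P ≠ none`;
* `ec_of_annOf`          : (EC) for `annOf`;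
* `sep_of_annOf`         : separating functions (`Ann.AnnDatum.Sep` in raw form).
-/
import Fermat.Agent.S33lib.NRed.Export
import Fermat.Agent.S19lib.C.Eval

set_option autoImplicit false
set_option linter.unusedSectionVars false

noncomputable section

namespace Fermat.Agent.S44lib.AnnInst

open AlgebraicCurve Module
open Fermat.Agent.S18lib Fermat.Agent.LSb Fermat.Agent.LSb.Core Fermat.Agent.S37lib
open Fermat.Agent.S33lib Fermat.Agent.S33lib.NRed Fermat.Agent.S19lib.C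

variable {L : Type*} [Field L] {A : ValuationSubring L}
variable {F : Type*} [Field F] [Algebra L F]
variable {F₁ F₂ : Type*} [Field F₁] [Field F₂]
variable [Algebra (IsLocalRing.ResidueField A) F₁] [Algebra (IsLocalRing.ResidueField A) F₂]

local notation "k" => IsLocalRing.ResidueField A

variable {D : NodalDatum A F F₁ F₂} {Y : Divisor L F}
  {Y₁ : Divisor (IsLocalRing.ResidueField A) F₁} {Y₂ : Divisor (IsLocalRing.ResidueField A) F₂}
  {g g₁ g₂ : ℕ}

/-- the levels at which the trichotomy for the reduction of a point applies -/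
def LevelOK (D : NodalDatum A F F₁ F₂) (Y₁ : Divisor k F₁) (Y₂ : Divisor k F₂) (g₁ g₂ : ℕ)
    (n : ℕ) : Prop :=
  2 * (g₁ : ℤ) + D.s + 1 ≤ n * Divisor.degree Y₁ ∧ 2 * (g₂ : ℤ) + D.s + 1 ≤ n * Divisor.degree Y₂

theorem LevelOK.mono (C : NCtx D Y Y₁ Y₂ g g₁ g₂) {n n' : ℕ} (h : LevelOK D Y₁ Y₂ g₁ g₂ n)
    (hn : n ≤ n') : LevelOK D Y₁ Y₂ g₁ g₂ n' := by
  have h1 : (n : ℤ) ≤ n' := by exact_mod_cast hn
  have := C.deg_pos₁
  have := C.deg_pos₂
  constructor
  · have := h.1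
    nlinarith
  · have := h.2
    nlinarith

theorem exists_levelOK (C : NCtx D Y Y₁ Y₂ g g₁ g₂) : ∃ N, ∀ n, N ≤ n → LevelOK D Y₁ Y₂ g₁ g₂ n :=
  C.exists_level

/-- constants and `L(E)` for effective `E` -/
theorem sub_const_mem_rr {E : Divisor L F} (hE : 0 ≤ E) {u : F} (hu : u ∈ riemannRochSpace E)
    (a : L) : u - algebraMap L F a ∈ riemannRochSpace E :=
  Submodule.sub_mem _ hu (Cech.const_mem_rr (fun v => by
    have := Finsupp.le_def.1 hE v
    simpa using this) a)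

/-- a section of `L(E)` vanishing at a point `P` outside the support of `E` lies in `L(E - P)` -/
theorem mem_rr_sub_single {E : Divisor L F} {P : Place L F} (hEP : E P = 0) {w : F}
    (hw : w ∈ riemannRochSpace E) (hv : VanAt P w) :
    w ∈ riemannRochSpace (E - Finsupp.single P 1) := by
  classical
  rw [mem_riemannRochSpace_iff] at hw ⊢
  intro v
  rcases hw v with h | h
  · exact Or.inl h
  · by_cases hvP : v = P
    · subst hvP
      rcases hv with h0 | h0
      · exact Or.inl h0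
      · right
        rw [Finsupp.sub_apply, Finsupp.single_apply, if_pos rfl, hEP]
        omega
    · right
      rw [Finsupp.sub_apply, Finsupp.single_apply, if_neg (Ne.symm hvP), sub_zero]
      exact h

theorem nsmul_nonneg' {E : Divisor L F} (hE : 0 ≤ E) (n : ℕ) : 0 ≤ (n : ℤ) • E :=
  smul_nonneg (Int.natCast_nonneg n) hE

/-- **(EC)** evaluation at a point which reduces to the node `c` at level `n`. -/
theorem ec_of_nodeRedAt (C : NCtx D Y Y₁ Y₂ g g₁ g₂) {n : ℕ} {P : Place L F} {c : Fin D.s}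
    (hYP : Y P = 0) (hc : NodeRedAt D Y n P c) {u : F} (huO : u ∈ D.O)
    (hu : u ∈ riemannRochSpace ((n : ℤ) • Y)) :
    RegAt P u ∧ ∃ h : ev P u ∈ A,
      HasValueAt (D.x₁ c) (D.V₁.redF u) (IsLocalRing.residue A ⟨ev P u, h⟩) ∧
      HasValueAt (D.x₂ c) (D.V₂.redF u) (IsLocalRing.residue A ⟨ev P u, h⟩) := by
  classical
  have hdeg : P.deg = 1 := C.curve.deg_eq_one P
  have hnY : 0 ≤ (n : ℤ) • Y := nsmul_nonneg' C.Y_nonneg n
  have hnYP : ((n : ℤ) • Y) P = 0 := by rw [Finsupp.smul_apply, hYP, smul_zero]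
  -- regularity
  have hreg : RegAt P u := by
    rw [regAt_iff_ord]
    rcases mem_riemannRochSpace_iff.1 hu P with rfl | h
    · simp
    · rw [hnYP] at h
      simpa using h
  refine ⟨hreg, ?_⟩
  have hval : HasValueAt P u (ev P u) := hasValueAt_ev hdeg hreg
  -- the reduction of `u` is regular at the node points
  have hNS := C.red_mem n u huO hu
  have hgl := (gluedAt_iff C.curve₁.deg_eq_one C.curve₂.deg_eq_one c _ _).1 (hNS.2.2 c)
  have hm₁ : D.V₁.redF u ∈ (D.x₁ c).toValuationSubring := hgl.1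
  have hm₂ : D.V₂.redF u ∈ (D.x₂ c).toValuationSubring := hgl.2.1
  by_cases ha : ev P u ∈ A
  · refine ⟨ha, ?_⟩
    set a : A := ⟨ev P u, ha⟩ with hadef
    -- `w = u - a` lies in `L(nY - P) ∩ O`
    have hcO : algebraMap L F (a : L) ∈ D.O :=
      NodalDatum.mem_O.2 ⟨D.V₁.algebraMap_mem a, D.V₂.algebraMap_mem a⟩
    have hwO : u - algebraMap L F (a : L) ∈ D.O := D.O.sub_mem huO hcO
    have hwL : u - algebraMap L F (a : L) ∈
        riemannRochSpace ((n : ℤ) • Y - Finsupp.single P 1) :=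
      mem_rr_sub_single hnYP (sub_const_mem_rr hnY hu _) (vanAt_sub_ev hdeg hreg)
    have hred : D.redF (u - algebraMap L F (a : L)) =
        (D.V₁.redF u - algebraMap k F₁ (IsLocalRing.residue A a),
          D.V₂.redF u - algebraMap k F₂ (IsLocalRing.residue A a)) := by
      rw [NodalDatum.redF_sub huO hcO]
      refine Prod.ext ?_ ?_
      · show D.V₁.redF u - D.V₁.redF (algebraMap L F (a : L)) = _
        rw [D.V₁.redF_algebraMap]
      · show D.V₂.redF u - D.V₂.redF (algebraMap L F (a : L)) = _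
        rw [D.V₂.redF_algebraMap]
    have h0 := hc _ (NodalDatum.redF_mem_redSub hwL hwO)
    rw [hred] at h0
    constructor
    · have hm : D.V₁.redF u - algebraMap k F₁ (IsLocalRing.residue A a) ∈
          (D.x₁ c).toValuationSubring := sub_mem hm₁ ((D.x₁ c).algebraMap_mem' _)
      exact (valAt_eq_zero_iff _ (C.curve₁.deg_eq_one _) hm).1 h0.1
    · have hm : D.V₂.redF u - algebraMap k F₂ (IsLocalRing.residue A a) ∈
          (D.x₂ c).toValuationSubring := sub_mem hm₂ ((D.x₂ c).algebraMap_mem' _)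
      exact (valAt_eq_zero_iff _ (C.curve₂.deg_eq_one _) hm).1 h0.2
  · exfalso
    -- `|u(P)| > 1`: then `u / u(P) - 1 ∈ L(nY - P) ∩ O` reduces to `-1`
    have ha0 : ev P u ≠ 0 := fun h0 => ha (by rw [h0]; exact A.zero_mem)
    have hbA : (ev P u)⁻¹ ∈ A := (A.mem_or_inv_mem (ev P u)).resolve_left ha
    set b : A := ⟨(ev P u)⁻¹, hbA⟩ with hbdef
    have hbm : b ∈ IsLocalRing.maximalIdeal A := by
      rw [IsLocalRing.mem_maximalIdeal, mem_nonunits_iff]
      intro hunit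
      obtain ⟨v, hv⟩ := hunit
      apply ha
      have h1 : ((v⁻¹ : Aˣ) : A) * b = 1 := by rw [← hv, Units.inv_mul]
      have h2 : (((v⁻¹ : Aˣ) : A) : L) * (ev P u)⁻¹ = 1 := by
        have := congrArg (fun x : A => (x : L)) h1
        simpa using this
      have h3 : (((v⁻¹ : Aˣ) : A) : L) = ev P u := by
        field_simp at h2
        exact h2
      rw [← h3]
      exact ((v⁻¹ : Aˣ) : A).2
    have hbuO : algebraMap L F (b : L) * u ∈ D.O := NodalDatum.smul_mem_O b huO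
    have hwO : algebraMap L F (b : L) * u - 1 ∈ D.O := D.O.sub_mem hbuO D.O.one_mem
    have hbuL : algebraMap L F (b : L) * u ∈ riemannRochSpace ((n : ℤ) • Y) := by
      rw [← Algebra.smul_def]
      exact Submodule.smul_mem _ _ hu
    have h1L : algebraMap L F (b : L) * u - 1 ∈ riemannRochSpace ((n : ℤ) • Y) := by
      have := sub_const_mem_rr hnY hbuL 1
      rwa [map_one] at this
    have hvan : VanAt P (algebraMap L F (b : L) * u - 1) := by
      rw [vanAt_iff_hasValueAt_zero]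
      have h1 := ((hasValueAt_const (Q := P) (b : L)).mul hval).sub (hasValueAt_one (Q := P))
      have e : (b : L) * ev P u - 1 = 0 := by
        show (ev P u)⁻¹ * ev P u - 1 = 0
        rw [inv_mul_cancel₀ ha0, sub_self]
      rwa [e] at h1
    have hwL := mem_rr_sub_single hnYP h1L hvan
    have hred : D.redF (algebraMap L F (b : L) * u - 1) = -1 := by
      rw [NodalDatum.redF_sub hbuO D.O.one_mem, NodalDatum.redF_smul_eq_zero hbm huO,
        NodalDatum.redF_one', zero_sub]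
    have h0 := (hc _ (NodalDatum.redF_mem_redSub hwL hwO)).1
    rw [hred] at h0
    have e : ((-1 : F₁ × F₂)).1 = algebraMap k F₁ (-1) := by
      rw [map_neg, map_one]; rfl
    rw [e, valAt_algebraMap] at h0
    exact one_ne_zero (neg_eq_zero.1 h0)

/-- the lift of the nodal function `δ_c` : value `1` at the node `c`, `0` at the other nodes -/
theorem exists_delta (C : NCtx D Y Y₁ Y₂ g g₁ g₂) {n : ℕ} (hn : LevelOK D Y₁ Y₂ g₁ g₂ n)
    (c : Fin D.s) :
    ∃ ψ : F, ψ ∈ D.O ∧ ψ ∈ riemannRochSpace ((n : ℤ) • Y) ∧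
      ∀ c', HasValueAt (D.x₁ c') (D.V₁.redF ψ) (if c' = c then 1 else 0) ∧
        HasValueAt (D.x₂ c') (D.V₂.redF ψ) (if c' = c then 1 else 0) := by
  classical
  have z₁ : ∀ c, ((n : ℤ) • Y₁ : Divisor k F₁) (D.x₁ c) = 0 := fun c => by
    rw [Finsupp.smul_apply, C.Y₁_x₁, smul_zero]
  have z₂ : ∀ c, ((n : ℤ) • Y₂ : Divisor k F₂) (D.x₂ c) = 0 := fun c => by
    rw [Finsupp.smul_apply, C.Y₂_x₂, smul_zero]
  obtain ⟨φ, hφ, hv⟩ := exists_mem_nodalSpace_valAt C.curve₁ C.curve₂ C.x₁_inj C.x₂_inj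
    (fun _ => 1) ((n : ℤ) • Y₁) ((n : ℤ) • Y₂) z₁ z₂
    (by rw [map_zsmul, smul_eq_mul]; linarith [hn.1])
    (by rw [map_zsmul, smul_eq_mul]; linarith [hn.2]) (fun c' => if c' = c then 1 else 0)
  obtain ⟨ψ, hψO, hψL, hψ⟩ := C.lift n (by linarith [hn.1]) (by linarith [hn.2]) φ hφ
  refine ⟨ψ, hψO, hψL, fun c' => ?_⟩
  have hgl := (gluedAt_iff C.curve₁.deg_eq_one C.curve₂.deg_eq_one c' _ _).1 (hφ.2.2 c')
  have h1 := vanishAt_sub_valAt (D.x₁ c') (C.curve₁.deg_eq_one _) hgl.1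
  have h2 := vanishAt_sub_valAt (D.x₂ c') (C.curve₂.deg_eq_one _) hgl.2.1
  rw [(hv c').1] at h1
  rw [(hv c').2, one_mul] at h2
  have e1 : D.V₁.redF ψ = φ.1 := congrArg Prod.fst hψ
  have e2 : D.V₂.redF ψ = φ.2 := congrArg Prod.snd hψ
  rw [e1, e2]
  exact ⟨h1, h2⟩

theorem rr_nsmul_mono (C : NCtx D Y Y₁ Y₂ g g₁ g₂) {n n' : ℕ} (hn : n ≤ n') :
    riemannRochSpace ((n : ℤ) • Y) ≤ riemannRochSpace ((n' : ℤ) • Y) := by
  apply riemannRochSpace_mono
  rw [Finsupp.le_def]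
  intro v
  rw [Finsupp.smul_apply, Finsupp.smul_apply, smul_eq_mul, smul_eq_mul]
  have h1 : (n : ℤ) ≤ n' := by exact_mod_cast hn
  have h2 : 0 ≤ Y v := by
    have := Finsupp.le_def.1 C.Y_nonneg v
    simpa using this
  nlinarith

/-- the node of a point at a level `n` and at a level `n' ≥ n` are the same -/
theorem node_eq_of_le (C : NCtx D Y Y₁ Y₂ g g₁ g₂) {n n' : ℕ} {P : Place L F} {c c' : Fin D.s}
    (hYP : Y P = 0) (hn : LevelOK D Y₁ Y₂ g₁ g₂ n) (hnn : n ≤ n') (hc : NodeRedAt D Y n P c)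
    (hc' : NodeRedAt D Y n' P c') : c' = c := by
  classical
  obtain ⟨ψ, hψO, hψL, hψ⟩ := exists_delta C hn c
  obtain ⟨-, h, h1, -⟩ := ec_of_nodeRedAt C hYP hc hψO hψL
  obtain ⟨-, h', h1', -⟩ := ec_of_nodeRedAt C hYP hc' hψO (rr_nsmul_mono C hnn hψL)
  have e1 := h1.unique (hψ c).1
  have e2 := h1'.unique (hψ c').1
  rw [if_pos rfl] at e1
  by_contra hne
  rw [if_neg hne] at e2
  rw [e1] at e2
  exact one_ne_zero e2

theorem Y_eq_zero_of_not_smoothRed (C : NCtx D Y Y₁ Y₂ g g₁ g₂) [Infinite k] {P : Place L F}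
    (hP : ¬ SmoothRed D Y Y₁ Y₂ g₁ g₂ P) : Y P = 0 := by
  by_contra h
  exact hP (smoothRed_of_Y_ne_zero C h)

/-- the place `P` reduces to the node `c` -/
def NodeOf (D : NodalDatum A F F₁ F₂) (Y : Divisor L F) (Y₁ : Divisor k F₁) (Y₂ : Divisor k F₂)
    (g₁ g₂ : ℕ) (P : Place L F) (c : Fin D.s) : Prop :=
  ¬ SmoothRed D Y Y₁ Y₂ g₁ g₂ P ∧ ∀ n, LevelOK D Y₁ Y₂ g₁ g₂ n → NodeRedAt D Y n P c

theorem NodeOf.unique (C : NCtx D Y Y₁ Y₂ g g₁ g₂) [Infinite k] {P : Place L F} {c c' : Fin D.s}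
    (h : NodeOf D Y Y₁ Y₂ g₁ g₂ P c) (h' : NodeOf D Y Y₁ Y₂ g₁ g₂ P c') : c' = c := by
  obtain ⟨N, hN⟩ := exists_levelOK C
  exact node_eq_of_le C (Y_eq_zero_of_not_smoothRed C h.1) (hN N le_rfl) le_rfl
    (h.2 N (hN N le_rfl)) (h'.2 N (hN N le_rfl))

/-- a place which does not reduce to a smooth point reduces to a well defined node -/
theorem exists_nodeOf (C : NCtx D Y Y₁ Y₂ g g₁ g₂) [Infinite k] {P : Place L F}
    (hP : ¬ SmoothRed D Y Y₁ Y₂ g₁ g₂ P) : ∃ c, NodeOf D Y Y₁ Y₂ g₁ g₂ P c := by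
  obtain ⟨N, hN⟩ := exists_levelOK C
  have hYP := Y_eq_zero_of_not_smoothRed C hP
  obtain ⟨c, hc⟩ := exists_nodeRedAt C hP (hN N le_rfl).1 (hN N le_rfl).2
  refine ⟨c, hP, fun n hn => ?_⟩
  obtain ⟨c', hc'⟩ := exists_nodeRedAt C hP hn.1 hn.2
  rcases le_total n N with hle | hle
  · -- `n ≤ N`
    have := node_eq_of_le C hYP hn hle hc' hc
    rw [this]
    exact hc'
  · have := node_eq_of_le C hYP (hN N le_rfl) hle hc hc'
    rw [← this]
    exact hc'

/-- **the annulus of a place** (`none` = the place reduces to a smooth point) -/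
def annOf (D : NodalDatum A F F₁ F₂) (Y : Divisor L F) (Y₁ : Divisor k F₁) (Y₂ : Divisor k F₂)
    (g₁ g₂ : ℕ) (P : Place L F) : Option (Fin D.s) :=
  letI := Classical.propDecidable
  if h : ∃ c, NodeOf D Y Y₁ Y₂ g₁ g₂ P c then some h.choose else none

theorem annOf_eq_some_iff (C : NCtx D Y Y₁ Y₂ g g₁ g₂) [Infinite k] {P : Place L F}
    {c : Fin D.s} : annOf D Y Y₁ Y₂ g₁ g₂ P = some c ↔ NodeOf D Y Y₁ Y₂ g₁ g₂ P c := by
  classical
  constructor
  · intro h
    by_cases hs : ∃ c, NodeOf D Y Y₁ Y₂ g₁ g₂ P c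
    · rw [annOf, dif_pos hs] at h
      rw [← Option.some_injective _ h]
      exact hs.choose_spec
    · rw [annOf, dif_neg hs] at h
      exact absurd h (by simp)
  · intro h
    have hs : ∃ c, NodeOf D Y Y₁ Y₂ g₁ g₂ P c := ⟨c, h⟩
    rw [annOf, dif_pos hs]
    exact congrArg some (NodeOf.unique C h hs.choose_spec)

theorem annOf_eq_none_iff_smoothRed (C : NCtx D Y Y₁ Y₂ g g₁ g₂) [Infinite k] {P : Place L F} :
    annOf D Y Y₁ Y₂ g₁ g₂ P = none ↔ SmoothRed D Y Y₁ Y₂ g₁ g₂ P := by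
  classical
  constructor
  · intro h
    by_contra hs
    obtain ⟨c, hc⟩ := exists_nodeOf C hs
    rw [(annOf_eq_some_iff C).2 hc] at h
    exact absurd h (by simp)
  · intro h
    have hs : ¬ ∃ c, NodeOf D Y Y₁ Y₂ g₁ g₂ P c := by
      rintro ⟨c, hc⟩
      exact hc.1 h
    rw [annOf, dif_neg hs]

theorem annOf_eq_none_iff (C : NCtx D Y Y₁ Y₂ g g₁ g₂) [Infinite k] (P : Place L F) :
    annOf D Y Y₁ Y₂ g₁ g₂ P = none ↔ rOf D Y Y₁ Y₂ g₁ g₂ P ≠ none := by
  rw [annOf_eq_none_iff_smoothRed C, Ne, rOf_eq_none_iff, not_not]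

/-- **(EC)** for the annulus map: `u ∈ L(nY) ∩ O` (any `n`). -/
theorem ec_of_annOf (C : NCtx D Y Y₁ Y₂ g g₁ g₂) [Infinite k] {P : Place L F} {c : Fin D.s}
    (hP : annOf D Y Y₁ Y₂ g₁ g₂ P = some c) {n : ℕ} {u : F} (huO : u ∈ D.O)
    (hu : u ∈ riemannRochSpace ((n : ℤ) • Y)) :
    RegAt P u ∧ ∃ h : ev P u ∈ A,
      HasValueAt (D.x₁ c) (D.V₁.redF u) (IsLocalRing.residue A ⟨ev P u, h⟩) ∧
      HasValueAt (D.x₂ c) (D.V₂.redF u) (IsLocalRing.residue A ⟨ev P u, h⟩) := by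
  obtain ⟨hs, hc⟩ := (annOf_eq_some_iff C).1 hP
  obtain ⟨N, hN⟩ := exists_levelOK C
  exact ec_of_nodeRedAt C (Y_eq_zero_of_not_smoothRed C hs) (hc (max n N) (hN _ (le_max_right _ _)))
    huO (rr_nsmul_mono C (le_max_left n N) hu)

/-- **separating functions** (the raw form of `Ann.AnnDatum.Sep`) -/
theorem sep_of_annOf (C : NCtx D Y Y₁ Y₂ g g₁ g₂) [Infinite k] {c c' : Fin D.s} (hcc : c' ≠ c)
    {P : Place L F} (hP : annOf D Y Y₁ Y₂ g₁ g₂ P = some c') :
    ∃ u : F, u ∈ D.V₁.O ∧ u ∈ D.V₂.O ∧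
      (∀ Q : Place L F, Q.ord u < 0 → rOf D Y Y₁ Y₂ g₁ g₂ Q ≠ none) ∧ 0 < P.ord u ∧
      HasValueAt (D.x₁ c) (D.V₁.redF u) 1 ∧ HasValueAt (D.x₂ c) (D.V₂.redF u) 1 := by
  classical
  obtain ⟨N, hN⟩ := exists_levelOK C
  obtain ⟨ψ, hψO, hψL, hψ⟩ := exists_delta C (hN N le_rfl) c
  obtain ⟨hreg, ha, h1, -⟩ := ec_of_annOf C hP hψO hψL
  have hdeg : P.deg = 1 := C.curve.deg_eq_one P
  have e0 := h1.unique (hψ c').1
  rw [if_neg hcc] at e0
  set a : A := ⟨ev P ψ, ha⟩ with hadef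
  have hcO : algebraMap L F (a : L) ∈ D.O :=
    NodalDatum.mem_O.2 ⟨D.V₁.algebraMap_mem a, D.V₂.algebraMap_mem a⟩
  have huO : ψ - algebraMap L F (a : L) ∈ D.O := D.O.sub_mem hψO hcO
  have hψO' := NodalDatum.mem_O.1 hψO
  have hcO' := NodalDatum.mem_O.1 hcO
  have hr1 : D.V₁.redF (ψ - algebraMap L F (a : L)) = D.V₁.redF ψ := by
    rw [D.V₁.redF_sub hψO'.1 hcO'.1, D.V₁.redF_algebraMap, e0, map_zero, sub_zero]
  have hr2 : D.V₂.redF (ψ - algebraMap L F (a : L)) = D.V₂.redF ψ := by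
    rw [D.V₂.redF_sub hψO'.2 hcO'.2, D.V₂.redF_algebraMap, e0, map_zero, sub_zero]
  have hv1 := (hψ c).1
  have hv2 := (hψ c).2
  rw [if_pos rfl] at hv1 hv2
  have hu0 : ψ - algebraMap L F (a : L) ≠ 0 := by
    intro h0
    rw [h0, D.V₁.redF_zero] at hr1
    rw [← hr1] at hv1
    have := hv1.unique (hasValueAt_zero (Q := D.x₁ c))
    exact one_ne_zero this
  have hnY : 0 ≤ (N : ℤ) • Y := nsmul_nonneg' C.Y_nonneg N
  refine ⟨ψ - algebraMap L F (a : L), (NodalDatum.mem_O.1 huO).1, (NodalDatum.mem_O.1 huO).2, ?_, ?_,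
    by rw [hr1]; exact hv1, by rw [hr2]; exact hv2⟩
  · intro Q hQ
    have hL := sub_const_mem_rr hnY hψL (a : L)
    have hYQ : Y Q ≠ 0 := by
      intro h0
      rcases mem_riemannRochSpace_iff.1 hL Q with h | h
      · exact hu0 h
      · rw [Finsupp.smul_apply, h0, smul_zero] at h
        omega
    rw [Ne, rOf_eq_none_iff, not_not]
    exact smoothRed_of_Y_ne_zero C hYQ
  · rcases vanAt_sub_ev hdeg hreg with h | h
    · exact absurd h hu0
    · exact h

end Fermat.Agent.S44lib.AnnInst
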