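/-
S44lib / AnnInst / Coord  (helper1)  — Project LSq, block (N4)(ii): the node coordinate, part 1

Level `M q`, `q ∤ M`, `A` over `q`, `I = A.inertiaSubgroupIn ℚ` the inertia group, `φ` a Frobenius element at `A`.

* `smul_mem_regAway`    : `G_ℚ` preserves `regAway ℚ̄ (j)`;
* `exists_fixed_isRep`  : an `I`-fixed unit `g` of the Gauss ring `O_M` is a ratio `elemL a / elemL b`
                          of integral modular functions with `I`-fixed coefficients, `b̄ ≠ 0`;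
* `frobPair_sigmaInt`   : for `a` with `I`-fixed coefficients, `FrobPair q a (φ⁻¹ a)`;
* **`exists_kronLike`** : for every `u ∈ regAway k (j̄)` there is `z ∈ FBar (M q)`, `IsKronLike`
                          (`z ∈ O₁ ∩ q O₂`, regular off the cusps), `I`-fixed, with
                          `red₁ z = u − V_q (V_q u)`.
  (`z = α g − (β (φ⁻¹ g)) ^ q` for the `I`-fixed lift `g ∈ O_M ∩ regAway` of `u`.)
-/
import Fermat.Agent.S44lib.AnnInst.Frob
import Fermat.Agent.S44lib.H4.KronOrd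
import Fermat.Agent.S36lib.Desc2.LiftM
import Fermat.Agent.S19lib.B.Inst

set_option autoImplicit false
set_option linter.unusedSectionVars false
set_option linter.unusedVariables false
set_option linter.style.haveILetI false

noncomputable section

namespace Fermat.Agent.S44lib.AnnInst

open AlgebraicCurve ModularCurve HahnSeries
open Fermat.Agent.S18lib Fermat.Agent.ProgramR Fermat.Agent.LSb Fermat.Agent.LSb.Unit
open Fermat.Agent.S29lib.GH Fermat.Agent.S36lib Fermat.Agent.S44lib.H4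


local notation "Qb" => AlgebraicClosure ℚ
local notation "GQ" => (AlgebraicClosure ℚ ≃ₐ[ℚ] AlgebraicClosure ℚ)

/-! ### `G_ℚ` preserves regularity off the cusps -/

section Reg

variable (M : ℕ) [NeZero M]

theorem smul_jF (σ : GQ) : galAutBar M σ • Gin0.jF M = Gin0.jF M :=
  Desc2.mem_fixF.mp (Desc2.jF_mem_fixF M ⊤) σ (Subgroup.mem_top σ)

theorem smul_mem_regAway (σ : GQ) {g : FBar M} (hg : g ∈ regAway Qb (Gin0.jF M)) :
    galAutBar M σ • g ∈ regAway Qb (Gin0.jF M) := by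
  intro Q hQ
  have h1 : Gin0.jF M ∈ ((galAutBar M σ)⁻¹ • Q).toValuationSubring := by
    rw [SemilinearAut.smul_toValuationSubring, ValuationSubring.mem_inv_pointwise_smul_iff,
      smul_jF]
    exact hQ
  have h2 := hg _ h1
  rwa [SemilinearAut.smul_toValuationSubring, ValuationSubring.mem_inv_pointwise_smul_iff] at h2

theorem galAutBar_mul (σ τ : GQ) : galAutBar M (σ * τ) = galAutBar M σ * galAutBar M τ :=
  map_mul (arithmeticGalois (modularFunctionFieldFull M)) σ τ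

theorem smul_qPow (q : ℕ) (σ : GQ) (m : ℤ) :
    galAutBar M σ • Desc.qPow M q m = Desc.qPow M q m := by
  rw [Desc.qPow, SemilinearAut.smul_algebraMap]
  congr 1
  show σ ((q : Qb) ^ m) = (q : Qb) ^ m
  rw [map_zpow₀, map_natCast]

end Reg

/-! ### fixed units of the Gauss ring as ratios with fixed coefficients -/

section Rep

variable (M : ℕ) [NeZero M] {q : ℕ} [NeZero q] [hq : Fact q.Prime] (A : ValuationSubring Qb)
  (hqM : ¬ q ∣ M) (hA : A.LiesOverPrime q)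

local notation "kA" => IsLocalRing.ResidueField A

/-- `q ^ m` is a unit of the Gauss ring only for `m = 0` -/
theorem eq_zero_of_qPow_unit {m : ℤ}
    (h1 : Desc.qPow M q m ∈ (V.gaussDatum M A hqM hA).O)
    (h2 : (Desc.qPow M q m)⁻¹ ∈ (V.gaussDatum M A hqM hA).O) : m = 0 := by
  rw [Desc.qPow, (V.gaussDatum M A hqM hA).algebraMap_mem_iff, ← A.valuation_le_one_iff,
    map_zpow₀, Desc.valuation_q_zpow_le_one_iff hq.out hA] at h1
  rw [Desc.qPow, ← map_inv₀, (V.gaussDatum M A hqM hA).algebraMap_mem_iff,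
    ← A.valuation_le_one_iff, ← zpow_neg, map_zpow₀,
    Desc.valuation_q_zpow_le_one_iff hq.out hA] at h2
  omega

/-- **an inertia-fixed unit of the Gauss ring is a ratio of integral modular functions with
inertia-fixed coefficients** -/
theorem exists_fixed_isRep {g : FBar M} (hgfix : ∀ σ ∈ A.inertiaSubgroupIn ℚ, galAutBar M σ • g = g)
    (hgred : (V.gaussDatum M A hqM hA).redF g ≠ 0) :
    ∃ a b : V.IntRing M A, V.IsRep g a b ∧
      (∀ σ ∈ A.inertiaSubgroupIn ℚ, galAutBar M σ • V.elemL a = V.elemL a) ∧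
      (∀ σ ∈ A.inertiaSubgroupIn ℚ, galAutBar M σ • V.elemL b = V.elemL b) := by
  set D := V.gaussDatum M A hqM hA with hD
  have hg0 : g ≠ 0 := by
    rintro rfl
    exact hgred D.redF_zero
  obtain ⟨P, hP, Q, hQ, hQ0, hgQ, hQfix, hPfix⟩ := Desc.exists_fixed_ratio M (A.inertiaSubgroupIn ℚ) hgfix
  have hP0 : P ≠ 0 := by
    rw [← hgQ]
    exact mul_ne_zero hg0 hQ0
  obtain ⟨mP, yP, hyP, hyPK, hyPe⟩ :=
    Desc.exists_qPow_mul_eq M (A.inertiaSubgroupIn ℚ) hq.out hA le_rfl hP hP0 hPfix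
  obtain ⟨mQ, yQ, hyQ, hyQK, hyQe⟩ :=
    Desc.exists_qPow_mul_eq M (A.inertiaSubgroupIn ℚ) hq.out hA le_rfl hQ hQ0 hQfix
  have hval := V.mem_or_inv_mem_gaussSubring_U M A hqM hA
  set a : V.IntRing M A := LSb.Val.intOfSeries hval yP hyP with ha
  set b : V.IntRing M A := LSb.Val.intOfSeries hval yQ hyQ with hb
  have hea : V.elemL a = Desc.qPow M q mP * P := hyPe
  have heb : V.elemL b = Desc.qPow M q mQ * Q := hyQe
  have haK : V.elemK a ≠ 0 := fun h => hyPK (congrArg Subtype.val h)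
  have hbK : V.elemK b ≠ 0 := fun h => hyQK (congrArg Subtype.val h)
  have haO : V.elemL a ∈ D.O := V.elemL_mem_gaussDatum_O M A hqM hA a
  have hbO : V.elemL b ∈ D.O := V.elemL_mem_gaussDatum_O M A hqM hA b
  have har : D.redF (V.elemL a) ≠ 0 := by
    rw [hD, V.gaussDatum_redF_elemL]
    exact haK
  have hbr : D.redF (V.elemL b) ≠ 0 := by
    rw [hD, V.gaussDatum_redF_elemL]
    exact hbK
  have ha0 : V.elemL a ≠ 0 := by
    intro h
    rw [h] at har
    exact har D.redF_zero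
  have e : Desc.qPow M q (-mP) * Desc.qPow M q mP = 1 := by
    rw [← Desc.qPow_add M hq.out, neg_add_cancel, Desc.qPow, zpow_zero, map_one]
  have key : g * V.elemL b = Desc.qPow M q (mQ - mP) * V.elemL a := by
    rw [hea, heb, sub_eq_add_neg, Desc.qPow_add M hq.out, ← hgQ]
    calc g * (Desc.qPow M q mQ * Q)
        = Desc.qPow M q mQ * 1 * (g * Q) := by ring
      _ = Desc.qPow M q mQ * (Desc.qPow M q (-mP) * Desc.qPow M q mP) * (g * Q) := by rw [e]
      _ = Desc.qPow M q mQ * Desc.qPow M q (-mP) * (Desc.qPow M q mP * (g * Q)) := by ring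
  have hc : Desc.qPow M q (mQ - mP) = g * V.elemL b * (V.elemL a)⁻¹ := by
    rw [key, mul_assoc, mul_inv_cancel₀ ha0, mul_one]
  have hgO : g ∈ D.O := D.mem_of_redF_ne_zero hgred
  have hm : mQ - mP = 0 := by
    apply eq_zero_of_qPow_unit M A hqM hA
    · rw [hc]
      exact D.O.mul_mem _ _ (D.O.mul_mem _ _ hgO hbO) (D.inv_mem_of_redF_ne_zero har)
    · rw [hc, mul_inv, mul_inv, inv_inv]
      exact D.O.mul_mem _ _ (D.O.mul_mem _ _ (D.inv_mem_of_redF_ne_zero hgred)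
        (D.inv_mem_of_redF_ne_zero hbr)) haO
  rw [hm, Desc.qPow, zpow_zero, map_one, one_mul] at key
  refine ⟨a, b, ⟨hbK, key⟩, ?_, ?_⟩
  · intro σ hσ
    rw [hea, smul_mul', hPfix σ hσ, smul_qPow]
  · intro σ hσ
    rw [heb, smul_mul', hQfix σ hσ, smul_qPow]

end Rep

/-! ### the Frobenius twist -/

section Twist

variable {M : ℕ} [NeZero M] {q : ℕ} [NeZero q] [hq : Fact q.Prime] {A : ValuationSubring Qb}
  (hA : A.LiesOverPrime q)

local notation "DA" => ValuationSubring.decompositionSubgroup ℚ A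

include hA in
/-- for `a` with inertia-fixed coefficients and `φ` a Frobenius element at `A`:
`a_n ≡ (φ⁻¹ a_n) ^ q mod q A` -/
theorem frobPair_sigmaInt {φ : GQ} (hφ : A.IsFrobeniusAt φ q) (hDi : φ⁻¹ ∈ DA)
    {a : V.IntRing M A} (hfix : ∀ σ ∈ A.inertiaSubgroupIn ℚ, galAutBar M σ • V.elemL a = V.elemL a) :
    FrobPair q a.1 (S19lib.B.sigmaInt M A ⟨φ⁻¹, hDi⟩ a).1 := by
  intro n
  have hcf : ∀ τ ∈ A.inertiaSubgroupIn ℚ,
      τ ((a.1.coeff n : A) : Qb) = ((a.1.coeff n : A) : Qb) := by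
    intro τ hτ
    have := Desc.coeff_fixed M (hfix τ hτ) n
    rwa [V.coe_elemL, V.toL_coeff] at this
  have h := sub_frob_inv_pow_div_mem hq.out hA hφ (a.1.coeff n).2 hcf
  have hq0 : ((q : ℕ) : Qb) ≠ 0 := by exact_mod_cast hq.out.ne_zero
  refine ⟨⟨_, h⟩, ?_⟩
  apply Subtype.ext
  have e1 : (((S19lib.B.sigmaInt M A ⟨φ⁻¹, hDi⟩ a).1.coeff n : A) : Qb) =
      φ⁻¹ ((a.1.coeff n : A) : Qb) := by
    show (((coeffMap ((S37lib.C0.sigmaA A ⟨φ⁻¹, hDi⟩ : A ≃+* A) : A →+* A) a.1).coeff n : A) : Qb)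
      = _
    rw [coeffMap_coeff]
    rfl
  push_cast
  rw [e1, mul_div_cancel₀ _ hq0]

end Twist

/-! ### the Kronecker function of an inertia-fixed unit -/

section Main

variable {M q : ℕ} [NeZero M] [NeZero q] [hq : Fact q.Prime] {A : ValuationSubring Qb}
variable (hqM : ¬ q ∣ M) (hA : A.LiesOverPrime q)
variable {D1 D2 : GaussDatum A (FBar (M * q)) (FRes A M)}
variable (h1 : Old.IsGaussOne D1) (h2 : Old.IsGaussTwo D1 D2 (wqR M q hqM))

local notation "kA" => IsLocalRing.ResidueField A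
local notation "DA" => ValuationSubring.decompositionSubgroup ℚ A

include hqM hA h1 h2 in
/-- **the fraction case**: `g = elemL a / elemL b`, `g' = elemL a' / elemL b'` with
`FrobPair q a a'`, `FrobPair q b b'`, `b̄ ≠ 0`, `b̄' ≠ 0`.  Then `z = α g − (β g') ^ q` lies in
`O₁ ∩ q O₂` and `red₁ z = ḡ − V_q (V_q ḡ)`. -/
theorem kronFrac {g g' : FBar M} {a b a' b' : V.IntRing M A} (hrep : V.IsRep g a b)
    (hrep' : V.IsRep g' a' b') (hpa : FrobPair q a.1 a'.1) (hpb : FrobPair q b.1 b'.1) :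
    Old.alpha M q g - (Old.beta M q g') ^ q ∈ D1.O ∧
      (algebraMap Qb (FBar (M * q)) (q : Qb))⁻¹ * (Old.alpha M q g - (Old.beta M q g') ^ q) ∈ D2.O ∧
      D1.redF (Old.alpha M q g - (Old.beta M q g') ^ q) =
        V.elemK a / V.elemK b - VqR hA (VqR hA (V.elemK a / V.elemK b)) := by
  set z := Old.alpha M q g - (Old.beta M q g') ^ q with hz
  set Dn := Old.alpha M q (V.elemL b) * (Old.beta M q (V.elemL b')) ^ q with hDn
  set Nn := Old.alpha M q (V.elemL b) * kron₂ M q a a' -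
    Old.alpha M q (V.elemL a) * kron₂ M q b b' with hNn
  have e1 : Old.alpha M q g * Old.alpha M q (V.elemL b) = Old.alpha M q (V.elemL a) := by
    rw [← map_mul, hrep.2]
  have e2 : (Old.beta M q g') ^ q * (Old.beta M q (V.elemL b')) ^ q =
      (Old.beta M q (V.elemL a')) ^ q := by
    rw [← mul_pow, ← map_mul, hrep'.2]
  have hzD : z * Dn = Nn := by
    rw [hz, hDn, hNn, kron₂, kron₂]
    linear_combination (Old.beta M q (V.elemL b')) ^ q * e1 - Old.alpha M q (V.elemL b) * e2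
  -- the first side
  have hαa := Old.alpha_elemL_mem (q := q) h1 a
  have hαb := Old.alpha_elemL_mem (q := q) h1 b
  have hβb' := Old.beta_elemL_mem hA h1 b'
  have hbK : V.elemK b ≠ 0 := hrep.1
  have hb'K : V.elemK b' ≠ 0 := hrep'.1
  have hVVb : VqR hA (VqR hA (V.elemK b)) ≠ 0 := by
    rw [Ne, map_eq_zero, map_eq_zero]
    exact hbK
  have hDn1 : Dn ∈ D1.O := D1.O.mul_mem _ _ hαb.1 (D1.O.pow_mem hβb'.1 q)
  have hDnr : D1.redF Dn = V.elemK b * VqR hA (VqR hA (V.elemK b)) := by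
    rw [hDn, D1.redF_mul hαb.1 (D1.O.pow_mem hβb'.1 q), D1.redF_pow hβb'.1, hαb.2, hβb'.2,
      ← VqR_pow_of_frobPair hA hpb]
    rfl
  have hDnr0 : D1.redF Dn ≠ 0 := by
    rw [hDnr]
    exact mul_ne_zero hbK hVVb
  have hDn0 : Dn ≠ 0 := by
    intro h
    rw [h] at hDnr0
    exact hDnr0 D1.redF_zero
  have hka := kron₂_mem₁ hA h1 a a'
  have hkb := kron₂_mem₁ hA h1 b b'
  have hNn1 : Nn ∈ D1.O := D1.O.sub_mem (D1.O.mul_mem _ _ hαb.1 hka) (D1.O.mul_mem _ _ hαa.1 hkb)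
  have hNnr : D1.redF Nn = V.elemK b * (V.elemK a - VqR hA (VqR hA (V.elemK a))) -
      V.elemK a * (V.elemK b - VqR hA (VqR hA (V.elemK b))) := by
    rw [hNn, D1.redF_sub (D1.O.mul_mem _ _ hαb.1 hka) (D1.O.mul_mem _ _ hαa.1 hkb),
      D1.redF_mul hαb.1 hka, D1.redF_mul hαa.1 hkb, hαa.2, hαb.2,
      redF₁_kron₂_of_frobPair hA h1 hpa, redF₁_kron₂_of_frobPair hA h1 hpb]
  have hzeq : z = Nn * Dn⁻¹ := by
    rw [← hzD, mul_assoc, mul_inv_cancel₀ hDn0, mul_one]
  have hDni1 : Dn⁻¹ ∈ D1.O := D1.inv_mem_of_redF_ne_zero hDnr0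
  refine ⟨?_, ?_, ?_⟩
  · rw [hzeq]
    exact D1.O.mul_mem _ _ hNn1 hDni1
  · -- the second side
    have hαa2 : Old.alpha M q (V.elemL a) ∈ D2.O :=
      (Old.alpha_mem_iff₂ hqM hA h1 h2 _).2 (V.elemL_mem_gaussDatum_O M A hqM hA a)
    have hαb2 : Old.alpha M q (V.elemL b) ∈ D2.O :=
      (Old.alpha_mem_iff₂ hqM hA h1 h2 _).2 (V.elemL_mem_gaussDatum_O M A hqM hA b)
    have hka2 := kron₂_div_mem₂ hqM hA h1 h2 hpa
    have hkb2 := kron₂_div_mem₂ hqM hA h1 h2 hpb
    have hβb := Old.beta_elemL_mem hA h1 b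
    have hαb' := Old.alpha_elemL_mem (q := q) h1 b'
    have hw : wqR M q hqM Dn = Old.beta M q (V.elemL b) * (Old.alpha M q (V.elemL b')) ^ q := by
      rw [hDn, map_mul, map_pow]
      have w1 : wqR M q hqM (Old.alpha M q (V.elemL b)) = Old.beta M q (V.elemL b) :=
        Val.wq_alpha M q hq.out hqM _
      have w2 : wqR M q hqM (Old.beta M q (V.elemL b')) = Old.alpha M q (V.elemL b') :=
        Val.wq_beta M q hq.out hqM _
      rw [w1, w2]
    have hDnr2 : D2.redF Dn ≠ 0 := by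
      rw [h2.redF, hw, D1.redF_mul hβb.1 (D1.O.pow_mem hαb'.1 q), D1.redF_pow hαb'.1, hβb.2,
        hαb'.2]
      refine mul_ne_zero ?_ (pow_ne_zero q hb'K)
      rw [Ne, map_eq_zero]
      exact hbK
    have e : (algebraMap Qb (FBar (M * q)) (q : Qb))⁻¹ * z =
        (Old.alpha M q (V.elemL b) * ((algebraMap Qb (FBar (M * q)) (q : Qb))⁻¹ * kron₂ M q a a') -
          Old.alpha M q (V.elemL a) * ((algebraMap Qb (FBar (M * q)) (q : Qb))⁻¹ * kron₂ M q b b'))
          * Dn⁻¹ := by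
      rw [hzeq, hNn]
      ring
    rw [e]
    exact D2.O.mul_mem _ _ (D2.O.sub_mem (D2.O.mul_mem _ _ hαb2 hka2) (D2.O.mul_mem _ _ hαa2 hkb2))
      (D2.inv_mem_of_redF_ne_zero hDnr2)
  · rw [hzeq, D1.redF_mul hNn1 hDni1, D1.redF_inv hDnr0, hNnr, hDnr, map_div₀, map_div₀]
    field_simp
    ring

include hqM hA h1 h2 in
/-- **the Kronecker function of a regular function on the special fibre**: for every
`u ∈ regAway k (j̄)` there is an inertia-fixed `z ∈ O₁ ∩ q O₂`, regular off the cusps, with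
`red₁ z = u − V_q (V_q u)`. -/
theorem exists_kronLike (u : FRes A M) (hu : u ∈ regAway kA (Gink.jK A M)) :
    ∃ z : FBar (M * q), IsKronLike D1 D2 z ∧ D1.redF z = u - VqR hA (VqR hA u) ∧
      ∀ σ ∈ A.inertiaSubgroupIn ℚ, galAutBar (M * q) σ • z = z := by
  rcases eq_or_ne u 0 with rfl | hu0
  · refine ⟨0, IsKronLike.zero, ?_, fun σ _ => smul_zero _⟩
    rw [D1.redF_zero, map_zero, map_zero, sub_zero]
  obtain ⟨y, hyreg, hyO, hyred⟩ := Desc2.exists_regAwayFix_lift M A hqM hA u hu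
  set g : FBar M := (y : FBar M) with hg
  have hgfix : ∀ σ ∈ A.inertiaSubgroupIn ℚ, galAutBar M σ • g = g := Desc2.mem_fixF.mp y.2
  have hgreg : g ∈ regAway Qb (Gin0.jF M) := hyreg
  have hgred : (V.gaussDatum M A hqM hA).redF g = u := by
    rw [← Desc2.gaussMK_redF]
    exact hyred
  obtain ⟨a, b, hrep, hafix, hbfix⟩ :=
    exists_fixed_isRep M A hqM hA hgfix (by rw [hgred]; exact hu0)
  obtain ⟨φ, hφ⟩ := exists_isFrobeniusAt_of_liesOver hq.out hA
  have hDφ : φ ∈ DA := (S56lib.TWSel.isFrobeniusAt_iff.1 hφ).1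
  have hDi : φ⁻¹ ∈ DA := inv_mem hDφ
  have hpa := frobPair_sigmaInt (M := M) hA hφ hDi hafix
  have hpb := frobPair_sigmaInt (M := M) hA hφ hDi hbfix
  have hrep' : V.IsRep (galAutBar M φ⁻¹ • g) (S19lib.B.sigmaInt M A ⟨φ⁻¹, hDi⟩ a)
      (S19lib.B.sigmaInt M A ⟨φ⁻¹, hDi⟩ b) := S19lib.B.isRep_smul M A ⟨φ⁻¹, hDi⟩ hrep
  have hg'reg : galAutBar M φ⁻¹ • g ∈ regAway Qb (Gin0.jF M) := smul_mem_regAway M φ⁻¹ hgreg
  obtain ⟨hz1, hz2, hzr⟩ := kronFrac hqM hA h1 h2 hrep hrep' hpa hpb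
  have hu' : V.elemK a / V.elemK b = u := by
    rw [← V.gaussDatum_redF_apply M A hqM hA hrep, hgred]
  rw [hu'] at hzr
  refine ⟨_, ⟨hz1, hz2, ?_⟩, hzr, ?_⟩
  · exact (regAway Qb (Gin0.jF (M * q))).sub_mem (S36lib.Fin.heckeAlphaBar_mem_regAway M q hgreg)
      ((regAway Qb (Gin0.jF (M * q))).pow_mem (S36lib.Fin.heckeBetaBar_mem_regAway M q hg'reg) q)
  · intro σ hσ
    have hσg' : galAutBar M σ • galAutBar M φ⁻¹ • g = galAutBar M φ⁻¹ • g := by
      have hc : φ * σ * φ⁻¹ ∈ A.inertiaSubgroupIn ℚ := conj_mem_inertia_of_decomp hDφ hσ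
      have e : σ * φ⁻¹ = φ⁻¹ * (φ * σ * φ⁻¹) := by group
      calc galAutBar M σ • galAutBar M φ⁻¹ • g
          = (galAutBar M σ * galAutBar M φ⁻¹) • g := by rw [mul_smul]
        _ = galAutBar M (σ * φ⁻¹) • g := by rw [galAutBar_mul]
        _ = galAutBar M (φ⁻¹ * (φ * σ * φ⁻¹)) • g := by rw [e]
        _ = galAutBar M φ⁻¹ • galAutBar M (φ * σ * φ⁻¹) • g := by rw [galAutBar_mul, mul_smul]
        _ = galAutBar M φ⁻¹ • g := by rw [hgfix _ hc]
    have eα : galAutBar (M * q) σ • Old.alpha M q g = Old.alpha M q (galAutBar M σ • g) :=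
      intertwines_alpha M q σ g
    have eβ : galAutBar (M * q) σ • Old.beta M q (galAutBar M φ⁻¹ • g) =
        Old.beta M q (galAutBar M σ • galAutBar M φ⁻¹ • g) :=
      intertwines_beta M q σ (galAutBar M φ⁻¹ • g)
    rw [smul_sub, smul_pow', eα, eβ, hgfix σ hσ, hσg']

end Main

end Fermat.Agent.S44lib.AnnInst
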